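import Fermat.Agent.S16.Defs
import Mathlib.NumberTheory.ModularForms.CuspFormSubmodule
import Fermat.Prelude.Thm_CongruenceSubgroup_one_mem_strictPeriods_Gamma0

/-!
# S16 piece: the forms bound from the congruence exclusions (proofs)
`G := (E - 24 f)/ℓ^{v_ℓ(p-1)}`, prime by prime.
-/

set_option autoImplicit false

namespace Fermat.Agent.S16.FB

open ModularCurve CuspForm UpperHalfPlane ModularFormClass CongruenceSubgroup
open scoped MatrixGroups

/-- `q`-coefficients of `c • (E - 24 • f)`. -/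
lemma qCoeff_comb (p : ℕ) (E : ModularForm (Gamma0 p) 2) (f : CuspForm (Gamma0 p) 2) (c : ℂ)
    (k : ℕ) :
    qCoeff (⇑(c • (E - (24 : ℂ) • CuspForm.toModularFormₗ f))) k =
      c * (qCoeff E k - 24 * qCoeff f k) := by
  unfold qCoeff
  have h1 := CongruenceSubgroup.one_mem_strictPeriods_Gamma0 p
  have e1 := ModularForm.qExpansion_smul one_pos h1 c (E - (24 : ℂ) • CuspForm.toModularFormₗ f)
  have e2 := ModularForm.qExpansion_sub one_pos h1 E ((24 : ℂ) • CuspForm.toModularFormₗ f)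
  have e3 := ModularForm.qExpansion_smul one_pos h1 (24 : ℂ) (CuspForm.toModularFormₗ f)
  have c1 : (⇑(c • (E - (24 : ℂ) • CuspForm.toModularFormₗ f)) : ℍ → ℂ) =
      c • ⇑(E - (24 : ℂ) • CuspForm.toModularFormₗ f) := rfl
  have c2 : (⇑(E - (24 : ℂ) • CuspForm.toModularFormₗ f) : ℍ → ℂ) =
      ⇑E - ⇑((24 : ℂ) • CuspForm.toModularFormₗ f) := rfl
  have c3 : (⇑((24 : ℂ) • CuspForm.toModularFormₗ f) : ℍ → ℂ) =
      (24 : ℂ) • ⇑(CuspForm.toModularFormₗ f) := rfl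
  have c4 : (⇑(CuspForm.toModularFormₗ f) : ℍ → ℂ) = ⇑f := rfl
  rw [c1, e1, c2, e2, c3, e3, c4]
  simp only [map_sub, PowerSeries.coeff_smul, smul_eq_mul]

/-- the constant coefficient of a cusp form vanishes -/
lemma qCoeff_zero_cusp (p : ℕ) (f : CuspForm (Gamma0 p) 2) : qCoeff (⇑f) 0 = 0 := by
  unfold qCoeff
  exact CuspFormClass.qExpansion_coeff_zero f one_pos
    (CongruenceSubgroup.one_mem_strictPeriods_Gamma0 p)

/-- the `ℓ`-adic valuation of `n = (p-1)/gcd(p-1,12)`. -/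
lemma factorization_eisensteinNumerator (p ℓ : ℕ) (hp : 2 ≤ p) :
    (eisensteinNumerator p).factorization ℓ + min ((p - 1).factorization ℓ)
      ((12 : ℕ).factorization ℓ) = (p - 1).factorization ℓ := by
  have hp1 : p - 1 ≠ 0 := by omega
  have hd : Nat.gcd (p - 1) 12 ∣ p - 1 := Nat.gcd_dvd_left _ _
  have hg : Nat.gcd (p - 1) 12 ≠ 0 := Nat.gcd_ne_zero_right (by norm_num)
  have hmul : eisensteinNumerator p * Nat.gcd (p - 1) 12 = p - 1 := Nat.div_mul_cancel hd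
  have hn : eisensteinNumerator p ≠ 0 := by
    intro h0
    rw [h0, zero_mul] at hmul
    exact hp1 hmul.symm
  have h1 := Nat.factorization_mul hn hg
  rw [hmul] at h1
  have h2 := Nat.factorization_gcd hp1 (show (12 : ℕ) ≠ 0 by norm_num)
  have h3 := congrFun (congrArg DFunLike.coe h1) ℓ
  rw [Finsupp.add_apply, h2, Finsupp.inf_apply] at h3
  omega

lemma eisensteinNumerator_ne_zero (p : ℕ) (hp : 2 ≤ p) : eisensteinNumerator p ≠ 0 := by
  have hp1 : p - 1 ≠ 0 := by omega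
  have hd : Nat.gcd (p - 1) 12 ∣ p - 1 := Nat.gcd_dvd_left _ _
  have hmul : eisensteinNumerator p * Nat.gcd (p - 1) 12 = p - 1 := Nat.div_mul_cancel hd
  intro h0
  rw [h0, zero_mul] at hmul
  exact hp1 hmul.symm

/-- the exponent identity `s + t = v_ℓ(n) + 1 + v_ℓ(24)`. -/
lemma add_congExp (p ℓ : ℕ) (hp : 2 ≤ p) (hℓ : ℓ.Prime) :
    (p - 1).factorization ℓ + congExp p ℓ =
      (eisensteinNumerator p).factorization ℓ + 1 + (24 : ℕ).factorization ℓ := by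
  have h1 := factorization_eisensteinNumerator p ℓ hp
  have h12 : (12 : ℕ).factorization ℓ ≤ (24 : ℕ).factorization ℓ := by
    have : (12 : ℕ) ∣ 24 := by norm_num
    exact (Nat.factorization_le_iff_dvd (by norm_num) (by norm_num)).2 this ℓ
  unfold congExp
  rw [← Nat.factorization_def _ hℓ, ← Nat.factorization_def _ hℓ, ← Nat.factorization_def _ hℓ]
  have hmin : min ((p - 1).factorization ℓ) ((12 : ℕ).factorization ℓ) ≤
      (12 : ℕ).factorization ℓ := min_le_right _ _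
  omega

/-- the core: one prime. -/
theorem not_pow_dvd (p : ℕ) [Fact p.Prime] (E : ModularForm (Gamma0 p) 2)
    (hE0 : qCoeff E 0 = ((p : ℂ) - 1))
    (hEk : ∀ k : ℕ, 1 ≤ k → qCoeff E k = 24 * (sigmaP p k : ℂ))
    (m : ℕ) (f : CuspForm (Gamma0 p) 2) (c : ℕ → ℤ)
    (hc : ∀ k : ℕ, 1 ≤ k → qCoeff f k = (c k : ℂ))
    (hcm : ∀ k : ℕ, 1 ≤ k → (m : ℤ) ∣ c k - (sigmaP p k : ℤ))
    (ℓ : ℕ) (hℓ : ℓ.Prime) (hN : NoCong p ℓ (congExp p ℓ)) :
    ¬ ℓ ^ ((eisensteinNumerator p).factorization ℓ + 1) ∣ m := by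
  intro hdvd
  have hp : 2 ≤ p := (Fact.out : p.Prime).two_le
  have hp1 : p - 1 ≠ 0 := by omega
  set s := (p - 1).factorization ℓ with hs
  set t := congExp p ℓ with ht
  set u : ℕ := (p - 1) / ℓ ^ s with hu
  have hℓ0 : (ℓ : ℂ) ≠ 0 := Nat.cast_ne_zero.2 hℓ.ne_zero
  have hus : ℓ ^ s * u = p - 1 := Nat.mul_div_cancel' (Nat.ordProj_dvd _ _)
  have hu_nd : ¬ ℓ ∣ u := Nat.not_dvd_ordCompl hℓ hp1
  -- divisibility of `24 (σ' - c)` by `ℓ^(s+t)`
  have h24 : ℓ ^ (24 : ℕ).factorization ℓ ∣ 24 := Nat.ordProj_dvd _ _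
  have hst : ℓ ^ (s + t) ∣ m * 24 := by
    rw [hs, ht, add_congExp p ℓ hp hℓ, pow_add]
    exact Nat.mul_dvd_mul hdvd h24
  have hdiv : ∀ k : ℕ, 1 ≤ k → ((ℓ : ℤ) ^ (s + t)) ∣ 24 * ((sigmaP p k : ℤ) - c k) := by
    intro k hk
    have h1 : (m : ℤ) ∣ (sigmaP p k : ℤ) - c k := by
      have := hcm k hk
      rw [← dvd_neg] at this
      simpa using this
    have h2 : ((m * 24 : ℕ) : ℤ) ∣ 24 * ((sigmaP p k : ℤ) - c k) := by
      push_cast
      rw [mul_comm]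
      exact mul_dvd_mul_left _ h1
    have h3 : ((ℓ ^ (s + t) : ℕ) : ℤ) ∣ ((m * 24 : ℕ) : ℤ) := Int.natCast_dvd_natCast.2 hst
    have h4 := h3.trans h2
    simpa using h4
  -- the integer coefficients of `G`
  set a : ℕ → ℤ := fun k => if k = 0 then (u : ℤ)
    else 24 * ((sigmaP p k : ℤ) - c k) / (ℓ : ℤ) ^ s with ha
  have hak : ∀ k : ℕ, 1 ≤ k → (ℓ : ℤ) ^ s * a k = 24 * ((sigmaP p k : ℤ) - c k) := by
    intro k hk
    have hk0 : k ≠ 0 := by omega
    simp only [ha, if_neg hk0]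
    apply Int.mul_ediv_cancel'
    exact (pow_dvd_pow _ (Nat.le_add_right s t)).trans (hdiv k hk)
  set G : ModularForm (Gamma0 p) 2 :=
    (((ℓ : ℂ) ^ s)⁻¹) • (E - (24 : ℂ) • CuspForm.toModularFormₗ f) with hG
  have hcoef : ∀ k : ℕ, qCoeff G k = (a k : ℂ) := by
    intro k
    rw [hG, qCoeff_comb]
    rcases Nat.eq_zero_or_pos k with rfl | hk
    · rw [hE0, qCoeff_zero_cusp]
      simp only [ha, if_true]
      have : ((p : ℂ) - 1) = (ℓ : ℂ) ^ s * (u : ℂ) := by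
        have h1 : ((ℓ ^ s * u : ℕ) : ℂ) = ((p - 1 : ℕ) : ℂ) := by rw [hus]
        rw [Nat.cast_sub (by omega : 1 ≤ p)] at h1
        push_cast at h1
        rw [← h1]
      rw [mul_zero, sub_zero, this]
      field_simp
      simp
    · rw [hEk k hk, hc k hk]
      have h1 := hak k hk
      have h2 : ((ℓ : ℂ) ^ s) * (a k : ℂ) = 24 * ((sigmaP p k : ℂ) - (c k : ℂ)) := by
        have := congrArg (fun z : ℤ => (z : ℂ)) h1
        push_cast at this
        exact this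
      have h3 : (24 : ℂ) * (sigmaP p k : ℂ) - 24 * (c k : ℂ) = (ℓ : ℂ) ^ s * (a k : ℂ) := by
        rw [h2]; ring
      rw [h3]
      field_simp
  have hdivG : ∀ k : ℕ, 1 ≤ k → (ℓ : ℤ) ^ t ∣ a k := by
    intro k hk
    have h1 := hdiv k hk
    rw [← hak k hk, pow_add] at h1
    have hℓs : ((ℓ : ℤ) ^ s) ≠ 0 := pow_ne_zero _ (Int.natCast_ne_zero.2 hℓ.ne_zero)
    exact (mul_dvd_mul_iff_left hℓs).1 h1
  have hfinal := hN G a hcoef hdivG
  simp only [ha, if_true] at hfinal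
  exact hu_nd (Int.natCast_dvd_natCast.1 hfinal)

end Fermat.Agent.S16.FB
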